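/-
P-MW / block MW-A1, row 720 (MW-A1-LFINT): a logarithmic form with residue divisor `D` is the
logarithmic derivative of a multiplicative function with divisor `D`
(`Fermat.Agent.H84.MWDiv.LogFormIntegralStatement N`), from the Mathlib-only analytic inputs
`LogDerivStatement`, `LogDerivUniqueStatement`, `CuspIntegralStatement`.
-/
import Fermat.Agent.H84.MWDiv.Interfaces2
import Fermat.Agent.H23.EsA.Unconditional
import Fermat.Agent.H60.EsAGrpStatements
import Fermat.Agent.H50.EsALoc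
import Fermat.Agent.H77.EsAChar
import Fermat.Agent.H77.EsAGrow

set_option autoImplicit false

noncomputable section

open AlgebraicCurve UpperHalfPlane Filter Topology
open scoped MatrixGroups Manifold

namespace Fermat.Agent.H33.MWDiv

open Fermat.Agent.H23.EsA Fermat.Agent.H84.MWDiv

/-! ### Analytic preliminaries on the upper half plane -/

/-- The derivative of a holomorphic function on `ℍ` is holomorphic. -/
theorem mdiff_dH {G : ℍ → ℂ} (hG : MDiff G) : MDiff (dH G) := by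
  rw [UpperHalfPlane.mdifferentiable_iff] at hG ⊢
  have h1 : DifferentiableOn ℂ (deriv (G ∘ ofComplex)) {z : ℂ | 0 < z.im} :=
    hG.deriv isOpen_upperHalfPlaneSet
  refine h1.congr fun z hz => ?_
  simp only [Function.comp_apply, dH]
  rw [ofComplex_apply_of_im_pos hz]

/-- Chain rule for the action of `SL(2,ℤ)`. -/
theorem dH_comp_smul {F : ℍ → ℂ} (hF : MDiff F) (γ : SL(2, ℤ)) (z : ℍ) :
    dH (fun z : ℍ => F (γ • z)) z = dH F (γ • z) * (denom γ z ^ 2)⁻¹ := by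
  have hdet : 0 < ((γ : GL (Fin 2) ℝ)).val.det := Fermat.Agent.H61.SL_det_pos' γ
  have hdet1 : ((γ : GL (Fin 2) ℝ)).val.det = 1 :=
    (Matrix.SpecialLinearGroup.map (Int.castRingHom ℝ) γ).det_coe
  have hφ := (z.hasStrictDerivAt_smul hdet).hasDerivAt
  have hF' : HasDerivAt (F ∘ ofComplex) (deriv (F ∘ ofComplex) ((γ • z : ℍ) : ℂ))
      ((γ • z : ℍ) : ℂ) :=
    (Fermat.Agent.H61.analyticAt_comp_ofComplex hF (γ • z)).differentiableAt.hasDerivAt
  have hcomp : (fun z : ℍ => F (γ • z)) ∘ ofComplex =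
      (F ∘ ofComplex) ∘ (fun w : ℂ => (((γ : GL (Fin 2) ℝ) • ofComplex w : ℍ) : ℂ)) := by
    funext w
    simp only [Function.comp_apply, ofComplex_apply]
    rfl
  have hz : (((γ : GL (Fin 2) ℝ) • ofComplex (z : ℂ) : ℍ) : ℂ) = ((γ • z : ℍ) : ℂ) := by
    rw [ofComplex_apply]; rfl
  have key := HasDerivAt.comp (z : ℂ) (h₂ := F ∘ ofComplex) (by rw [hz]; exact hF') hφ
  simp only [dH]
  rw [hcomp, key.deriv, hdet1]
  simp [div_eq_mul_inv]

/-- If `F' ψ = φ F` and `φ / ψ` has weight two for `γ`, then `F ∘ γ` satisfies the same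
equation. -/
theorem ode_comp_smul {φ ψ F : ℍ → ℂ} (hφ : MDiff φ) (hψ : MDiff ψ) (hψ0 : ψ ≠ 0)
    (hF : MDiff F) (hode : ∀ z : ℍ, dH F z * ψ z = φ z * F z) (γ : SL(2, ℤ))
    (haut : ∀ z : ℍ, φ (γ • z) * ψ z = denom γ z ^ 2 * (φ z * ψ (γ • z))) :
    ∀ z : ℍ, dH (fun z : ℍ => F (γ • z)) z * ψ z = φ z * F (γ • z) := by
  have hFγ : MDiff (fun z : ℍ => F (γ • z)) := Fermat.Agent.H77.esg_mdiff_comp_smul hF γ
  have hψγ : MDiff (fun z : ℍ => ψ (γ • z)) := Fermat.Agent.H77.esg_mdiff_comp_smul hψ γ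
  have hψγ0 : (fun z : ℍ => ψ (γ • z)) ≠ 0 :=
    fun h => hψ0 (Fermat.Agent.H77.esg_eq_zero_of_comp_smul_eq_zero γ h)
  set h : ℍ → ℂ := fun z => dH (fun z : ℍ => F (γ • z)) z * ψ z - φ z * F (γ • z) with hh
  have hmd : MDiff h := ((mdiff_dH hFγ).mul hψ).sub (hφ.mul hFγ)
  have hzero : ∀ z, h z * ψ (γ • z) = 0 := by
    intro z
    have hd : denom γ z ^ 2 ≠ 0 := pow_ne_zero _ (denom_ne_zero _ z)
    simp only [hh, dH_comp_smul hF]
    have e1 := hode (γ • z)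
    have e2 := haut z
    have e3 : (dH F (γ • z) * (denom γ z ^ 2)⁻¹ * ψ z - φ z * F (γ • z)) * ψ (γ • z) =
        (denom γ z ^ 2)⁻¹ * ((dH F (γ • z) * ψ (γ • z)) * ψ z -
          (denom γ z ^ 2 * (φ z * ψ (γ • z))) * F (γ • z)) := by
      field_simp
    rw [e3, e1, ← e2]
    ring
  have h0 := Fermat.Agent.H77.esg_eq_zero_of_mul_eq_zero hmd hψγ hzero hψγ0
  intro z
  have hz := congrFun h0 z
  simp only [hh, Pi.zero_apply] at hz
  exact sub_eq_zero.mp hz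

/-- The residue of a logarithmic form at a point is well defined. -/
theorem residue_unique {φ ψ : ℍ → ℂ} (hψ : MDiff ψ) (hψ0 : ψ ≠ 0) (z₀ : ℍ) {a a' : ℂ}
    {u u' : ℂ → ℂ} (hu : AnalyticAt ℂ u (z₀ : ℂ)) (hu' : AnalyticAt ℂ u' (z₀ : ℂ))
    (h : ∀ᶠ z in 𝓝 (z₀ : ℂ),
      (φ ∘ ofComplex) z * (z - z₀) = (ψ ∘ ofComplex) z * (a + (z - z₀) * u z))
    (h' : ∀ᶠ z in 𝓝 (z₀ : ℂ),
      (φ ∘ ofComplex) z * (z - z₀) = (ψ ∘ ofComplex) z * (a' + (z - z₀) * u' z)) :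
    a = a' := by
  have han := Fermat.Agent.H61.analyticAt_comp_ofComplex hψ z₀
  have hne := Fermat.Agent.H50.analyticOrderAt_ne_top_of_ne_zero hψ hψ0 z₀
  have hev : ∀ᶠ z in 𝓝[≠] (z₀ : ℂ), (ψ ∘ ofComplex) z ≠ 0 := by
    rcases han.eventually_eq_zero_or_eventually_ne_zero with h0 | h0
    · exact absurd (analyticOrderAt_eq_top.mpr h0) hne
    · exact h0
  have heq : ∀ᶠ z in 𝓝[≠] (z₀ : ℂ), a + (z - z₀) * u z = a' + (z - z₀) * u' z := by
    filter_upwards [hev, h.filter_mono nhdsWithin_le_nhds,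
      h'.filter_mono nhdsWithin_le_nhds] with z hz h1 h2
    rw [h1] at h2
    exact mul_left_cancel₀ hz h2
  have hc : ∀ (b : ℂ) (w : ℂ → ℂ), AnalyticAt ℂ w (z₀ : ℂ) →
      Tendsto (fun z => b + (z - z₀) * w z) (𝓝[≠] (z₀ : ℂ)) (𝓝 b) := by
    intro b w hw
    have hcont : ContinuousAt (fun z : ℂ => b + (z - z₀) * w z) (z₀ : ℂ) :=
      continuousAt_const.add ((continuousAt_id.sub continuousAt_const).mul hw.continuousAt)
    have := hcont.tendsto.mono_left (nhdsWithin_le_nhds (s := {(z₀ : ℂ)}ᶜ))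
    simpa using this
  exact tendsto_nhds_unique_of_eventuallyEq (hc a u hu) (hc a' u' hu') heq

/-- A nonzero function on `ℍ` which is multiplied by a constant by every element of `Γ₀(N)`
has a character. -/
theorem exists_char_of_proportional (N : ℕ) {F : ℍ → ℂ} (hF0 : F ≠ 0)
    (h : ∀ γ : ↥(CongruenceSubgroup.Gamma0 N), ∃ c : ℂ, ∀ z : ℍ,
      F ((γ : SL(2, ℤ)) • z) = c * F z) :
    ∃ χ : Char0 N, HasCharacter N F χ := by
  obtain ⟨z₀, hz₀⟩ := Fermat.Agent.H77.esc_exists_ne_zero hF0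
  choose ζ hζ using h
  have hζ0 : ∀ γ, ζ γ ≠ 0 := by
    intro γ h0
    apply hF0
    apply Fermat.Agent.H77.esg_eq_zero_of_comp_smul_eq_zero (γ : SL(2, ℤ))
    funext z
    rw [hζ γ z, h0, zero_mul]
    rfl
  have hone : ζ 1 = 1 := by
    have h1 := hζ 1 z₀
    rw [Subgroup.coe_one, one_smul] at h1
    have h2 : ζ 1 * F z₀ = 1 * F z₀ := by rw [one_mul]; exact h1.symm
    exact mul_right_cancel₀ hz₀ h2
  have hmul : ∀ γ γ', ζ (γ * γ') = ζ γ * ζ γ' := by
    intro γ γ'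
    have h1 := hζ (γ * γ') z₀
    rw [Subgroup.coe_mul, mul_smul, hζ γ, hζ γ'] at h1
    have h2 : ζ (γ * γ') * F z₀ = ζ γ * ζ γ' * F z₀ := by
      rw [← h1]; ring
    exact mul_right_cancel₀ hz₀ h2
  exact ⟨{ toFun := fun γ => Units.mk0 (ζ γ) (hζ0 γ)
           map_one' := Units.ext hone
           map_mul' := fun γ γ' => Units.ext (hmul γ γ') }, fun γ z => hζ γ z⟩

/-- `T ^ w` has multiplier one. -/
theorem denom_T_pow (w : ℕ) (z : ℍ) : denom (ModularGroup.T ^ w : SL(2, ℤ)) z = 1 := by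
  have h := ModularGroup.coe_T_zpow (w : ℤ)
  rw [zpow_natCast] at h
  rw [ModularGroup.denom_apply]
  have h10 : (ModularGroup.T ^ w : SL(2, ℤ)) 1 0 = 0 := by
    have := congrFun (congrFun h 1) 0
    simpa using this
  have h11 : (ModularGroup.T ^ w : SL(2, ℤ)) 1 1 = 1 := by
    have := congrFun (congrFun h 1) 1
    simpa using this
  rw [h10, h11]
  simp

/-- **Integration at a cusp**: the function `F ∘ δ` is periodic of period the width, has moderate
growth and its order at the cusp is the residue. -/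
theorem cusp_integral (N : ℕ) (hCI : CuspIntegralStatement) {D : Divisor ℂ ↥(FC N)}
    {φ ψ F : ℍ → ℂ} (hφ : MDiff φ) (hψ : MDiff ψ) (hF : MDiff F) (hF0 : F ≠ 0)
    (haut : ∀ γ ∈ CongruenceSubgroup.Gamma0 N, ∀ z : ℍ,
      φ (γ • z) * ψ z = denom γ z ^ 2 * (φ z * ψ (γ • z)))
    (hode : ∀ z : ℍ, dH F z * ψ z = φ z * F z)
    (δ : SL(2, ℤ)) (v : Place ℂ ↥(FC N)) (w : ℕ) (hv : IsCuspPlace N δ v w)
    (hcusp : ∃ C Y ε : ℝ, 0 < ε ∧ ∀ z : ℍ, Y ≤ z.im → ψ (δ • z) ≠ 0 ∧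
      ‖φ (δ • z) / ψ (δ • z) * (denom δ z ^ 2)⁻¹ -
          2 * (Real.pi : ℂ) * Complex.I * ((D v : ℤ) : ℂ) / (w : ℂ)‖ ≤
        C * Real.exp (-ε * z.im)) :
    (∀ z : ℍ, F (δ • (ModularGroup.T ^ w • z)) = F (δ • z)) ∧
      GrowthAtInfty (fun z => F (δ • z)) ∧
      cuspOrd w (fun z => F (δ • z)) = ((D v : ℤ) : WithTop ℤ) := by
  obtain ⟨hw, hmem, -⟩ := hv
  have hγ' : δ * ModularGroup.T ^ w * δ⁻¹ ∈ CongruenceSubgroup.Gamma0 N := by
    have := (hmem (w : ℤ)).mpr dvd_rfl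
    rwa [zpow_natCast] at this
  have hH : MDiff (fun z : ℍ => F (δ • z)) := Fermat.Agent.H77.esg_mdiff_comp_smul hF δ
  have hΦ : MDiff (fun z : ℍ => φ (δ • z)) := Fermat.Agent.H77.esg_mdiff_comp_smul hφ δ
  have hΨ : MDiff (fun z : ℍ => ψ (δ • z) * denom δ z ^ 2) :=
    (Fermat.Agent.H77.esg_mdiff_comp_smul hψ δ).mul ((mdifferentiable_denom _).pow 2)
  have hH0 : (fun z : ℍ => F (δ • z)) ≠ 0 :=
    fun h => hF0 (Fermat.Agent.H77.esg_eq_zero_of_comp_smul_eq_zero δ h)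
  have hodeH : ∀ z : ℍ, dH (fun z : ℍ => F (δ • z)) z * (ψ (δ • z) * denom δ z ^ 2) =
      φ (δ • z) * F (δ • z) := by
    intro z
    have hd : denom δ z ^ 2 ≠ 0 := pow_ne_zero _ (denom_ne_zero _ z)
    rw [dH_comp_smul hF, ← hode (δ • z)]
    field_simp
  have hper : ∀ z : ℍ, φ (δ • (ModularGroup.T ^ w • z)) * (ψ (δ • z) * denom δ z ^ 2) =
      φ (δ • z) * (ψ (δ • (ModularGroup.T ^ w • z)) *
        denom δ ((ModularGroup.T ^ w • z : ℍ) : ℂ) ^ 2) := by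
    intro z
    have hsm : δ • (ModularGroup.T ^ w • z) = (δ * ModularGroup.T ^ w * δ⁻¹) • (δ • z) := by
      simp only [mul_smul, inv_smul_smul]
    have hden : denom δ ((ModularGroup.T ^ w • z : ℍ) : ℂ) =
        denom (δ * ModularGroup.T ^ w * δ⁻¹ : SL(2, ℤ)) ((δ • z : ℍ) : ℂ) * denom δ z := by
      have h1 := denom_mul_SL δ (ModularGroup.T ^ w) z
      have h2 := denom_mul_SL (δ * ModularGroup.T ^ w * δ⁻¹) δ z
      have h3 : (δ * ModularGroup.T ^ w * δ⁻¹) * δ = δ * ModularGroup.T ^ w := by group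
      rw [h3] at h2
      rw [h2, denom_T_pow, mul_one] at h1
      exact h1.symm
    have e := haut _ hγ' (δ • z)
    rw [hden, hsm]
    linear_combination (denom δ z ^ 2) * e
  obtain ⟨C, Y, ε, hε, hb⟩ := hcusp
  have key := hCI (fun z : ℍ => φ (δ • z)) (fun z : ℍ => ψ (δ • z) * denom δ z ^ 2)
    (fun z : ℍ => F (δ • z)) w (D v) hw hΦ hΨ hH hH0 hodeH hper
    ⟨C, Y, ε, hε, fun z hz => by
      obtain ⟨h1, h2⟩ := hb z hz
      have hd : denom δ z ^ 2 ≠ 0 := pow_ne_zero _ (denom_ne_zero _ z)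
      refine ⟨mul_ne_zero h1 hd, ?_⟩
      have e : φ (δ • z) / (ψ (δ • z) * denom δ z ^ 2) =
          φ (δ • z) / ψ (δ • z) * (denom δ z ^ 2)⁻¹ := by
        field_simp
      rw [e]
      exact h2⟩
  exact key

/-- Periodicity under `T ^ w` implies periodicity under `T ^ k` for every multiple `k` of `w`. -/
theorem periodic_zpow_of_periodic {P : ℍ → ℂ} {w : ℕ}
    (h : ∀ z : ℍ, P (ModularGroup.T ^ w • z) = P z) {k : ℤ} (hk : (w : ℤ) ∣ k) (z : ℍ) :
    P (ModularGroup.T ^ k • z) = P z := by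
  have hnat : ∀ (j : ℕ) (z : ℍ), P ((ModularGroup.T ^ w) ^ j • z) = P z := by
    intro j
    induction j with
    | zero => intro z; simp
    | succ j ih =>
      intro z
      rw [pow_succ, mul_smul, ih, h]
  obtain ⟨j, rfl⟩ := hk
  rw [zpow_mul, zpow_natCast]
  rcases Int.eq_nat_or_neg j with ⟨j', rfl | rfl⟩
  · rw [zpow_natCast]
    exact hnat j' z
  · rw [zpow_neg, zpow_natCast]
    have := hnat j' (((ModularGroup.T ^ w) ^ j')⁻¹ • z)
    rw [smul_inv_smul] at this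
    exact this.symm

/-- `Γ₀(N)` is stable under `γ ↦ -γ`. -/
theorem neg_mem_Gamma0 (N : ℕ) {γ : SL(2, ℤ)} (h : γ ∈ CongruenceSubgroup.Gamma0 N) :
    -γ ∈ CongruenceSubgroup.Gamma0 N := by
  rw [CongruenceSubgroup.Gamma0_mem] at h ⊢
  simp [h]

/-- **[A1-LFINT]** a logarithmic form with residue divisor `D` (effective on the points of `ℍ`)
is the logarithmic derivative of a multiplicative function with divisor `D`. -/
theorem logFormIntegral (N : ℕ) [NeZero N] (hLD : LogDerivStatement)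
    (hLU : LogDerivUniqueStatement) (hCI : CuspIntegralStatement) :
    LogFormIntegralStatement N := by
  intro D _hdeg hDpos φ ψ hlog
  obtain ⟨hφ, hψ, hψ0, haut, hpt, hcusp⟩ := hlog
  obtain ⟨hP1, hP2, -⟩ := placesStatement N
  choose v s hvs using hP1
  have hk : ∀ z₀, 0 ≤ (s z₀ : ℤ) * D (v z₀) := fun z₀ =>
    mul_nonneg (Int.natCast_nonneg _) (hDpos z₀ _ _ (hvs z₀))
  have hkcast : ∀ z₀, ((((s z₀ : ℤ) * D (v z₀)).toNat : ℕ) : ℤ) = (s z₀ : ℤ) * D (v z₀) :=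
    fun z₀ => Int.toNat_of_nonneg (hk z₀)
  obtain ⟨F, hF, hF0, hode, hord⟩ := hLD φ ψ (fun z₀ => ((s z₀ : ℤ) * D (v z₀)).toNat)
    hφ hψ hψ0 (by
      intro z₀
      obtain ⟨u, hu, hev⟩ := hpt z₀ (v z₀) (s z₀) (hvs z₀)
      refine ⟨u, hu, ?_⟩
      filter_upwards [hev] with z hz
      rw [hz]
      have : ((((s z₀ : ℤ) * D (v z₀)).toNat : ℕ) : ℂ) = (((s z₀ : ℤ) * D (v z₀) : ℤ) : ℂ) := by
        rw [← Int.cast_natCast, hkcast z₀]
      rw [this])
  have hode' : ∀ z : ℍ, dH F z * ψ z = φ z * F z := hode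
  -- the character
  have hprop : ∀ γ : ↥(CongruenceSubgroup.Gamma0 N), ∃ c : ℂ, ∀ z : ℍ,
      F ((γ : SL(2, ℤ)) • z) = c * F z := by
    intro γ
    exact hLU φ ψ (fun z => F ((γ : SL(2, ℤ)) • z)) F hφ hψ hψ0
      (Fermat.Agent.H77.esg_mdiff_comp_smul hF γ) hF hF0
      (ode_comp_smul hφ hψ hψ0 hF hode' γ (haut γ γ.2)) hode
  obtain ⟨χ, hχ⟩ := exists_char_of_proportional N hF0 hprop
  -- the cusps
  have hcuspF : ∀ (δ : SL(2, ℤ)) (v : Place ℂ ↥(FC N)) (w : ℕ), IsCuspPlace N δ v w →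
      (∀ z : ℍ, F (δ • (ModularGroup.T ^ w • z)) = F (δ • z)) ∧
      GrowthAtInfty (fun z => F (δ • z)) ∧
      cuspOrd w (fun z => F (δ • z)) = ((D v : ℤ) : WithTop ℤ) := fun δ v w hv =>
    cusp_integral N hCI hφ hψ hF hF0 haut hode' δ v w hv (hcusp δ v w hv)
  -- a value of the character is determined by one functional equation
  have hχ1 : ∀ (γ : ↥(CongruenceSubgroup.Gamma0 N)) (z : ℍ), F z ≠ 0 →
      F ((γ : SL(2, ℤ)) • z) = F z → χ γ = 1 := by
    intro γ z hz h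
    have h1 := hχ γ z
    rw [h] at h1
    have h2 : ((χ γ : ℂˣ) : ℂ) * F z = 1 * F z := by rw [one_mul]; exact h1.symm
    exact Units.ext (mul_right_cancel₀ hz h2)
  refine ⟨F, χ, hF, hF0, hχ, ?_, ?_, ?_, ?_⟩
  · -- parabolic-elliptic triviality
    intro γ htr
    rcases lt_or_eq_of_le htr with hlt | heq
    · -- elliptic elements
      obtain ⟨z₀, hz₀⟩ := Fermat.Agent.H60.ellipticFixStatement (γ : SL(2, ℤ)) hlt
      have hmc := Fermat.Agent.H50.multiplierChar F hF (γ : SL(2, ℤ)) z₀ hz₀ (χ γ : ℂ)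
        (fun z => hχ γ z) _ (hord z₀)
      have hs := (hvs z₀).2.2 (γ : SL(2, ℤ)) γ.2 hz₀
      have hnat : ((s z₀ : ℤ) * D (v z₀)).toNat = s z₀ * (D (v z₀)).toNat := by
        have hD := hDpos z₀ _ _ (hvs z₀)
        apply Int.ofNat.inj
        show ((((s z₀ : ℤ) * D (v z₀)).toNat : ℕ) : ℤ) = ((s z₀ * (D (v z₀)).toNat : ℕ) : ℤ)
        rw [hkcast z₀, Nat.cast_mul, Int.toNat_of_nonneg hD]
      rw [hnat, pow_mul, hs, one_pow, mul_one] at hmc
      exact Units.ext hmc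
    · -- parabolic elements and `±1`
      obtain ⟨δ, k, hγ⟩ := Fermat.Agent.H60.parabolicFormStatement (γ : SL(2, ℤ)) heq
      obtain ⟨v', w, hv'⟩ := hP2 δ
      have hsmul : ∀ z : ℍ, (γ : SL(2, ℤ)) • z = (δ * ModularGroup.T ^ k * δ⁻¹) • z := by
        intro z
        rcases hγ with h | h
        · rw [h]
        · rw [h, ModularGroup.SL_neg_smul]
      have hgmem : δ * ModularGroup.T ^ k * δ⁻¹ ∈ CongruenceSubgroup.Gamma0 N := by
        rcases hγ with h | h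
        · rw [← h]; exact γ.2
        · have := neg_mem_Gamma0 N γ.2
          rw [h, neg_neg] at this
          exact this
      have hwk : (w : ℤ) ∣ k := (hv'.2.1 k).mp hgmem
      obtain ⟨hper, -, -⟩ := hcuspF δ v' w hv'
      have hperk := periodic_zpow_of_periodic (P := fun z => F (δ • z)) hper hwk
      obtain ⟨z₁, hz₁⟩ := Fermat.Agent.H77.esc_exists_ne_zero
        (show (fun z : ℍ => F (δ • z)) ≠ 0 from
          fun h => hF0 (Fermat.Agent.H77.esg_eq_zero_of_comp_smul_eq_zero δ h))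
      refine hχ1 γ (δ • z₁) hz₁ ?_
      rw [hsmul, mul_smul, mul_smul, inv_smul_smul]
      exact hperk z₁
  · -- moderate growth
    intro γ
    obtain ⟨v', w, hv'⟩ := hP2 γ
    exact (hcuspF γ v' w hv').2.1
  · -- orders at the points
    intro z₀ v' s' hv'
    rw [hord z₀]
    obtain ⟨u, hu, hev⟩ := hpt z₀ (v z₀) (s z₀) (hvs z₀)
    obtain ⟨u', hu', hev'⟩ := hpt z₀ v' s' hv'
    have hres := residue_unique hψ hψ0 z₀ hu hu' hev hev'
    have hres' : (s z₀ : ℤ) * D (v z₀) = (s' : ℤ) * D v' := Int.cast_injective hres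
    rw [hkcast z₀, hres']
  · -- orders at the cusps
    intro δ v' w hv'
    exact (hcuspF δ v' w hv').2.2

end Fermat.Agent.H33.MWDiv

end
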