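/-
P-MW / block MW-A1, row 820 (MW-A1-ART-ii): the trace modulo `y`
(`Fermat.Agent.H84.MWDiv.TraceResidueStatement`): if `G` is regular at the zeros `v` of `y`
with values `c v` and `Tr_{F/K(y)} G = P(y)`, then `P(0) = ∑_{v | 0} ord_v(y) c v`.

Proof: `A = K[X]` (`X ↦ y`), `B` the integral closure of `A` in `F`; choose `h ∈ K[X]` with
`h(0) = 1` and `h(y) G ∈ B`, and apply the landed `Fermat.Agent.H47.RH.trace_eq_sum_residues`
at the maximal ideal `(X)`.
-/
import Fermat.Agent.H84.MWDiv.Interfaces3
import Fermat.Agent.H47.RH.TraceResidue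
import Fermat.Agent.H47.RH.LocalDiscr
import Fermat.Agent.H56.RH.Global
import Fermat.Agent.H19.RH.FibreSumFinal
import Fermat.Agent.H19.RH.RamIdx
import Fermat.Agent.H19.RH.FrameDict

set_option autoImplicit false
set_option linter.style.haveILetI false
set_option linter.unusedSectionVars false

noncomputable section

open Polynomial Module AlgebraicCurve IsDedekindDomain IntermediateField

namespace Fermat.Agent.H33.MWDiv

open Fermat.Agent.H56.RH Fermat.Agent.H84.MWDiv

attribute [local instance] Ideal.Quotient.field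

section core

variable {K F : Type} [Field K] [IsAlgClosed K] [Field F] [Algebra K F]
  [Algebra K[X] F] [Algebra (RatFunc K) F] [IsScalarTower K K[X] F]
  [IsScalarTower K[X] (RatFunc K) F] [IsScalarTower K (RatFunc K) F]
  [Algebra (PolyInv K) F] [IsScalarTower (PolyInv K) (RatFunc K) F]
  [IsScalarTower K (PolyInv K) F]
  [FiniteDimensional (RatFunc K) F] [Algebra.IsSeparable (RatFunc K) F]

/-- The trace of an integral element, computed in the integral closure. -/
theorem trace_integralClosure_eq (x : integralClosure K[X] F) :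
    haveI := isTorsionFree_of_tower K[X] (RatFunc K) F
    haveI : Module.Free K[X] (integralClosure K[X] F) :=
      IsIntegralClosure.module_free K[X] (RatFunc K) F (integralClosure K[X] F)
    haveI : Module.Finite K[X] (integralClosure K[X] F) :=
      IsIntegralClosure.finite K[X] (RatFunc K) F (integralClosure K[X] F)
    Algebra.trace (RatFunc K) F (x : F) =
      algebraMap K[X] (RatFunc K) (Algebra.trace K[X] (integralClosure K[X] F) x) := by
  haveI := isTorsionFree_of_tower K[X] (RatFunc K) F
  haveI : Module.Free K[X] (integralClosure K[X] F) :=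
    IsIntegralClosure.module_free K[X] (RatFunc K) F (integralClosure K[X] F)
  haveI : Module.Finite K[X] (integralClosure K[X] F) :=
    IsIntegralClosure.finite K[X] (RatFunc K) F (integralClosure K[X] F)
  haveI := isLocalization_integralClosure K[X] (RatFunc K) F
  exact Algebra.trace_localization K[X] (nonZeroDivisors K[X]) (Rₘ := RatFunc K) (Sₘ := F) x

/-- The image of `K[X]` is regular at every place which is not a pole of `y`. -/
theorem algebraMap_poly_mem (p : K[X]) (v : Place K F) (hv : 0 ≤ v.ord (yOf K F)) :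
    algebraMap K[X] F p ∈ v.toValuationSubring := by
  apply Fermat.Agent.H29.place_mem_of_ord_nonneg
  exact (isIntegral_poly_iff Fermat.Agent.H19.rhDictStrong _).mp isIntegral_algebraMap v hv

/-- Clearing the denominators of `G` away from the zeros of `y`: there is `h ∈ K[X]` with
`h(0) = 1` and `h(y) G` integral over `K[X]`. -/
theorem exists_poly_mul_isIntegral (G : F)
    (hG : ∀ v : Place K F, 0 < v.ord (yOf K F) → 0 ≤ v.ord G) :
    ∃ h : K[X], h.eval 0 = 1 ∧ IsIntegral K[X] (algebraMap K[X] F h * G) := by
  haveI := isLocalization_integralClosure K[X] (RatFunc K) F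
  obtain ⟨⟨b, ⟨a', ha'⟩⟩, hb⟩ := IsLocalization.surj
    (Algebra.algebraMapSubmonoid (integralClosure K[X] F) (nonZeroDivisors K[X])) G
  obtain ⟨a, ha, rfl⟩ := ha'
  have ha0 : a ≠ 0 := nonZeroDivisors.ne_zero ha
  obtain ⟨q, hq, hqd⟩ := Polynomial.exists_eq_pow_rootMultiplicity_mul_and_not_dvd a ha0 0
  rw [map_zero, sub_zero] at hq hqd
  have hq0 : q.eval 0 ≠ 0 := by
    intro h0
    apply hqd
    rw [Polynomial.X_dvd_iff, Polynomial.coeff_zero_eq_eval_zero]
    exact h0
  set m := Polynomial.rootMultiplicity 0 a with hm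
  have hy0 : yOf K F ≠ 0 := yOf_ne_zero
  have hb' : G * ((yOf K F) ^ m * algebraMap K[X] F q) = (b : F) := by
    have h1 : algebraMap (integralClosure K[X] F) F
        (algebraMap K[X] (integralClosure K[X] F) a) = algebraMap K[X] F a :=
      (IsScalarTower.algebraMap_apply K[X] (integralClosure K[X] F) F a).symm
    have h2 : G * algebraMap K[X] F a = (b : F) := by
      rw [← h1]; exact hb
    rw [hq, map_mul, map_pow, algebraMap_poly_X] at h2
    exact h2
  have hqG : algebraMap K[X] F q * G = (b : F) * ((yOf K F)⁻¹) ^ m := by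
    rw [← hb', inv_pow]
    field_simp
  refine ⟨C (q.eval 0)⁻¹ * q, ?_, ?_⟩
  · rw [Polynomial.eval_mul, Polynomial.eval_C, inv_mul_cancel₀ hq0]
  · rw [isIntegral_poly_iff Fermat.Agent.H19.rhDictStrong]
    intro v hv
    apply Fermat.Agent.H29.place_ord_nonneg_of_mem
    rw [map_mul, mul_assoc]
    refine mul_mem (algebraMap_poly_mem _ v hv) ?_
    rcases hv.lt_or_eq with hpos | hzero
    · exact mul_mem (algebraMap_poly_mem _ v hv)
        (Fermat.Agent.H29.place_mem_of_ord_nonneg v (hG v hpos))
    · rw [hqG]
      have hbv : (b : F) ∈ v.toValuationSubring := by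
        apply Fermat.Agent.H29.place_mem_of_ord_nonneg
        exact (isIntegral_poly_iff Fermat.Agent.H19.rhDictStrong _).mp b.2 v hv
      have hyi : (yOf K F)⁻¹ ∈ v.toValuationSubring := by
        apply Fermat.Agent.H29.place_mem_of_ord_nonneg
        rw [v.ord_inv, ← hzero]
        simp
      exact mul_mem hbv (pow_mem hyi m)

/-- The value of `h(y) G` at a zero of `y`, for `h(0) = 1`. -/
theorem adicValuation_poly_mul_sub_lt (v : Place K F) (hv : 0 < v.ord (yOf K F)) (G : F) (c : K)
    (hc : v.adicValuation (G - algebraMap K F c) < 1) (h : K[X]) (hh : h.eval 0 = 1) :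
    v.adicValuation (algebraMap K[X] F h * G - algebraMap K F c) < 1 := by
  have hle : ∀ q : K[X], v.adicValuation (algebraMap K[X] F q) ≤ 1 := fun q =>
    (Fermat.Agent.H23.mem_iff_adicValuation_le_one v).mp (algebraMap_poly_mem q v hv.le)
  have hy : v.adicValuation (yOf K F) < 1 :=
    (Fermat.Agent.H23.adicValuation_lt_one_iff v).mpr (Or.inr hv)
  have hdvd : (X : K[X]) ∣ h - 1 := by
    rw [Polynomial.X_dvd_iff, Polynomial.coeff_zero_eq_eval_zero, Polynomial.eval_sub, hh,
      Polynomial.eval_one, sub_self]
  obtain ⟨h', hh'⟩ := hdvd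
  have e1 : algebraMap K[X] F h - 1 = yOf K F * algebraMap K[X] F h' := by
    rw [← algebraMap_poly_X, ← map_mul, ← hh', map_sub, map_one]
  have e2 : algebraMap K[X] F h * G - algebraMap K F c =
      algebraMap K[X] F h * (G - algebraMap K F c) +
        algebraMap K F c * (yOf K F * algebraMap K[X] F h') := by
    rw [← e1]; ring
  have hcK : v.adicValuation (algebraMap K F c) ≤ 1 :=
    (Fermat.Agent.H23.mem_iff_adicValuation_le_one v).mp (v.algebraMap_mem' c)
  rw [e2]
  refine lt_of_le_of_lt (Valuation.map_add _ _ _) (max_lt ?_ ?_)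
  · rw [map_mul]
    calc v.adicValuation (algebraMap K[X] F h) * v.adicValuation (G - algebraMap K F c)
        ≤ 1 * v.adicValuation (G - algebraMap K F c) := mul_le_mul_left (hle h) _
      _ < 1 := by rw [one_mul]; exact hc
  · rw [map_mul, map_mul]
    calc v.adicValuation (algebraMap K F c) *
          (v.adicValuation (yOf K F) * v.adicValuation (algebraMap K[X] F h'))
        ≤ 1 * (v.adicValuation (yOf K F) * 1) :=
          mul_le_mul' hcK (mul_le_mul' le_rfl (hle h'))
      _ < 1 := by rw [one_mul, mul_one]; exact hy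

set_option maxHeartbeats 1000000 in
set_option synthInstance.maxHeartbeats 400000 in
/-- **The trace modulo `y`**, in the frame `K[X] → K(X) → F`. -/
theorem traceResidue_core (G : F) (c : Place K F → K) (P : K[X])
    (hG : ∀ v : Place K F, 0 < v.ord (yOf K F) → 0 ≤ v.ord G ∧ HasValueAt v G (c v))
    (htr : Algebra.trace (RatFunc K) F G = algebraMap K[X] (RatFunc K) P) :
    P.eval 0 =
      ∑ᶠ v ∈ {v : Place K F | 0 < v.ord (yOf K F)}, ((v.ord (yOf K F) : ℤ) : K) * c v := by
  classical
  haveI := isTorsionFree_of_tower K[X] (RatFunc K) F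
  haveI hDed := isDedekindDomain_integralClosure K[X] (RatFunc K) F
  haveI := isFractionRing_integralClosure K[X] (RatFunc K) F
  haveI : Module.Free K[X] (integralClosure K[X] F) :=
    IsIntegralClosure.module_free K[X] (RatFunc K) F (integralClosure K[X] F)
  haveI : Module.Finite K[X] (integralClosure K[X] F) :=
    IsIntegralClosure.finite K[X] (RatFunc K) F (integralClosure K[X] F)
  -- the maximal ideal `(X)`
  have ht : (X - C (0 : K) : K[X]) = X := by rw [map_zero, sub_zero]
  set p : Ideal K[X] := Ideal.span {(X - C (0 : K) : K[X])} with hp_def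
  have hp : p ≠ ⊥ := by
    rw [hp_def, Ne, Ideal.span_singleton_eq_bot, ht]
    exact Polynomial.X_ne_zero
  haveI hpmax : p.IsMaximal :=
    Ideal.IsPrime.isMaximal ((Ideal.span_singleton_prime (by rw [ht]; exact X_ne_zero)).mpr
      (Polynomial.prime_X_sub_C 0)) hp
  have hbij := bijective_mk_X_sub_C (K := K) 0
  let e : K ≃+* (K[X] ⧸ p) :=
    RingEquiv.ofBijective ((Ideal.Quotient.mk p).comp (algebraMap K K[X])) hbij
  have hAC : IsAlgClosed (K[X] ⧸ p) := IsAlgClosed.of_ringEquiv K (K[X] ⧸ p) e
  have hsurj : ∀ Q ∈ IsDedekindDomain.primesOverFinset p (integralClosure K[X] F),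
      Function.Surjective (algebraMap K[X] ((integralClosure K[X] F) ⧸ Q)) := by
    intro Q hQ
    obtain ⟨hQmax, hQover⟩ := Fermat.Agent.H47.RH.isMaximal_of_mem_primesOverFinset p hp hQ
    have hbij' := IsAlgClosed.algebraMap_bijective_of_isIntegral (k := K[X] ⧸ p)
      (K := (integralClosure K[X] F) ⧸ Q)
    intro w
    obtain ⟨a, ha⟩ := hbij'.2 w
    obtain ⟨a, rfl⟩ := Ideal.Quotient.mk_surjective a
    refine ⟨a, ?_⟩
    rw [← ha, Ideal.Quotient.algebraMap_mk_of_liesOver]
    rfl
  -- clearing denominators
  obtain ⟨h, hh, hint⟩ := exists_poly_mul_isIntegral G (fun v hv => (hG v hv).1)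
  set x : integralClosure K[X] F := ⟨algebraMap K[X] F h * G, hint⟩ with hx
  have htrx : Algebra.trace K[X] (integralClosure K[X] F) x = h * P := by
    apply IsFractionRing.injective K[X] (RatFunc K)
    rw [← trace_integralClosure_eq x]
    show Algebra.trace (RatFunc K) F (algebraMap K[X] F h * G) = _
    rw [IsScalarTower.algebraMap_apply K[X] (RatFunc K) F, ← Algebra.smul_def, map_smul, htr,
      smul_eq_mul, map_mul]
  -- the primes over `(X)` and their places
  set S := IsDedekindDomain.primesOverFinset p (integralClosure K[X] F) with hS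
  have hmaple : ∀ Q : ↥S, p.map (algebraMap K[X] (integralClosure K[X] F)) ≤ (Q : Ideal _) :=
    fun Q => Fermat.Agent.H47.RH.map_le_of_mem_primesOverFinset p hp Q.2
  have hne : ∀ Q : ↥S, (Q : Ideal (integralClosure K[X] F)) ≠ ⊥ := by
    intro Q h
    apply Ideal.map_ne_bot_of_ne_bot (S := integralClosure K[X] F) hp
    have hle := hmaple Q
    rw [h] at hle
    exact le_bot_iff.mp hle
  let toHOS : ↥S → HeightOneSpectrum (integralClosure K[X] F) := fun Q =>
    ⟨Q.1, (Fermat.Agent.H47.RH.isMaximal_of_mem_primesOverFinset p hp Q.2).1.isPrime, hne Q⟩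
  let pl : ↥S → Place K F := fun Q => Place.ofHeightOneSpectrum (K := K) (F := F) (toHOS Q)
  have hplinj : Function.Injective pl := by
    intro Q Q' hQ
    have h1 := Fermat.Agent.H29.ofHeightOneSpectrum_injective (K := K) (F := F) hQ
    exact Subtype.ext (congrArg HeightOneSpectrum.asIdeal h1)
  have hX0 : algebraMap K[X] (integralClosure K[X] F) X ≠ 0 := by
    intro h0
    have := congrArg (algebraMap (integralClosure K[X] F) F) h0
    rw [← IsScalarTower.algebraMap_apply, algebraMap_poly_X, map_zero] at this
    exact yOf_ne_zero this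
  have hyB : algebraMap (integralClosure K[X] F) F
      (algebraMap K[X] (integralClosure K[X] F) X) = yOf K F := by
    rw [← IsScalarTower.algebraMap_apply, algebraMap_poly_X]
  have hpos_iff : ∀ w : HeightOneSpectrum (integralClosure K[X] F),
      0 < (Place.ofHeightOneSpectrum (K := K) (F := F) w).ord (yOf K F) ↔
        p.map (algebraMap K[X] (integralClosure K[X] F)) ≤ w.asIdeal := by
    intro w
    have h1 := Fermat.Agent.H29.ord_ofHeightOneSpectrum_pos_iff (K := K) (F := F) w
      (algebraMap K[X] (integralClosure K[X] F) X)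
    rw [hyB] at h1
    rw [hp_def, ht, Ideal.map_span, Set.image_singleton, Ideal.span_singleton_le_iff_mem, ← h1]
    constructor
    · intro h; exact Or.inr h
    · rintro (h | h)
      · exact absurd h hX0
      · exact h
  have hplpos : ∀ Q : ↥S, 0 < (pl Q).ord (yOf K F) := fun Q =>
    (hpos_iff (toHOS Q)).mpr (hmaple Q)
  have hrange : Set.range pl = {v : Place K F | 0 < v.ord (yOf K F)} := by
    ext v
    constructor
    · rintro ⟨Q, rfl⟩
      exact hplpos Q
    · intro hv
      obtain ⟨w, hw⟩ := (Fermat.Agent.H19.rhDictStrong K F K[X] (integralClosure K[X] F)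
        (yOf K F) range_algebraMap_poly).1 v (le_of_lt hv)
      have hle : p.map (algebraMap K[X] (integralClosure K[X] F)) ≤ w.asIdeal := by
        rw [← hpos_iff, hw]; exact hv
      have hmem : w.asIdeal ∈ S :=
        Fermat.Agent.H47.RH.mem_primesOverFinset_of_le p hp w.isPrime hle
      refine ⟨⟨w.asIdeal, hmem⟩, ?_⟩
      rw [← hw]
    
  have hram : ∀ Q : ↥S, ((p.ramificationIdx' (Q : Ideal (integralClosure K[X] F)) : ℕ) : ℤ) =
      (pl Q).ord (yOf K F) := by
    intro Q
    have h1 := Fermat.Agent.H47.RH.expAt_eq_ramificationIdx' (A := K[X])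
      (B := integralClosure K[X] F) (X - C (0 : K)) (by rw [ht]; exact hX0) (toHOS Q)
    have h2 := Fermat.Agent.H19.rh_expAt_cast (K := K) (F := F) (A := K[X])
      (B := integralClosure K[X] F) (X - C (0 : K)) (toHOS Q)
    have h3 : algebraMap K[X] F (X - C (0 : K)) = yOf K F := by rw [ht, algebraMap_poly_X]
    rw [h3] at h2
    rw [← h2, h1]
  -- the residues
  let a : Ideal (integralClosure K[X] F) → K[X] := fun Q =>
    if hQ : Q ∈ S then C (c (pl ⟨Q, hQ⟩)) else 0
  have ha : ∀ Q ∈ S, algebraMap K[X] (integralClosure K[X] F) (a Q) - x ∈ Q := by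
    intro Q hQ
    simp only [a, dif_pos hQ]
    set v := pl ⟨Q, hQ⟩ with hv
    have hvpos : 0 < v.ord (yOf K F) := hplpos ⟨Q, hQ⟩
    have hval : v.adicValuation (algebraMap K[X] F h * G - algebraMap K F (c v)) < 1 :=
      adicValuation_poly_mul_sub_lt v hvpos G (c v)
        (by
          have h2 := (hG v hvpos).2
          unfold HasValueAt at h2
          rw [Fermat.Agent.H23.adicValuation_lt_one_iff, sub_eq_zero]
          exact h2) h hh
    have hmap : algebraMap (integralClosure K[X] F) F
        (algebraMap K[X] (integralClosure K[X] F) (C (c v)) - x) =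
          -(algebraMap K[X] F h * G - algebraMap K F (c v)) := by
      rw [map_sub, ← IsScalarTower.algebraMap_apply, ← Polynomial.algebraMap_eq,
        ← IsScalarTower.algebraMap_apply K K[X] F]
      show algebraMap K F (c v) - algebraMap K[X] F h * G = _
      ring
    have hmem := (Fermat.Agent.H29.ord_ofHeightOneSpectrum_pos_iff (K := K) (F := F)
      (toHOS ⟨Q, hQ⟩) (algebraMap K[X] (integralClosure K[X] F) (C (c v)) - x)).mp
    apply hmem
    have hval' := (Fermat.Agent.H23.adicValuation_lt_one_iff v).mp hval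
    rcases hval' with h0 | h0
    · left
      apply IsFractionRing.injective (integralClosure K[X] F) F
      rw [hmap, h0, neg_zero, map_zero]
    · right
      rw [hmap, Fermat.Agent.H23.ord_neg]
      exact h0
  -- the trace formula modulo `(X)`
  have key := Fermat.Agent.H47.RH.trace_eq_sum_residues p hp hsurj x a ha
  let ev : K[X] ⧸ p →+* K := Ideal.Quotient.lift p (Polynomial.evalRingHom 0) (by
    intro f hf
    rw [hp_def, Ideal.mem_span_singleton, ht] at hf
    obtain ⟨g, rfl⟩ := hf
    simp)
  have hev : ∀ f : K[X], ev (Ideal.Quotient.mk p f) = f.eval 0 := fun f => by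
    simp only [ev, Ideal.Quotient.lift_mk, Polynomial.coe_evalRingHom]
  have key2 := congrArg ev key
  rw [hev, htrx, Polynomial.eval_mul, hh, one_mul, map_sum] at key2
  rw [key2, ← hrange, finsum_mem_range hplinj, finsum_eq_sum_of_fintype, Finset.univ_eq_attach,
    ← Finset.sum_attach S]
  refine Finset.sum_congr rfl (fun Q _ => ?_)
  rw [map_mul, map_natCast, hev]
  simp only [a, dif_pos Q.2, Polynomial.eval_C]
  congr 1
  rw [← hram Q]
  simp

end core

/-- **[A1-ART-ii]** the trace modulo `y`. -/
theorem traceResidue : TraceResidueStatement := by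
  intro K F _ _ _ _ _ g _hR y hy hfin G c P hG htr
  haveI := hfin
  haveI : CharZero ↥K⟮y⟯ := charZero_of_injective_algebraMap (algebraMap K _).injective
  have hsep : Algebra.IsSeparable ↥K⟮y⟯ F := inferInstance
  letI := polyAlgebra (K := K) y
  letI := ratFuncAlgebra y hy
  haveI := isScalarTower_poly_ratFunc y hy
  haveI := isScalarTower_const_poly (K := K) y
  haveI := isScalarTower_const_ratFunc y hy
  letI : Algebra (PolyInv K) F :=
    ((algebraMap (RatFunc K) F).comp (algebraMap (PolyInv K) (RatFunc K))).toAlgebra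
  haveI : IsScalarTower (PolyInv K) (RatFunc K) F :=
    IsScalarTower.of_algebraMap_eq fun _ => rfl
  haveI : IsScalarTower K (PolyInv K) F := IsScalarTower.of_algebraMap_eq fun c => by
    rw [IsScalarTower.algebraMap_apply (PolyInv K) (RatFunc K) F,
      ← IsScalarTower.algebraMap_apply K (PolyInv K) (RatFunc K),
      ← IsScalarTower.algebraMap_apply K (RatFunc K) F]
  obtain ⟨hfd, hsp, -⟩ := Fermat.Agent.H19.rhFrame K F y hy hfin hsep
  haveI := hfd
  haveI := hsp
  have hy' : yOf K F = y := ratFuncHom_X y hy
  have htr' : Algebra.trace (RatFunc K) F G = algebraMap K[X] (RatFunc K) P := by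
    have h1 := Algebra.trace_eq_of_equiv_equiv
      ((RatFunc.algEquivOfTranscendental y hy).symm : K⟮y⟯ ≃+* RatFunc K) (RingEquiv.refl F)
      (Fermat.Agent.H19.ratFuncAlgebra_comp_eq y hy) G
    apply (algebraMap (RatFunc K) F).injective
    have h2 : algebraMap (RatFunc K) F (algebraMap K[X] (RatFunc K) P) = Polynomial.aeval y P :=
      ratFuncHom_algebraMap y hy P
    rw [h2, ← htr, h1]
    have h3 := congrFun (congrArg DFunLike.coe (Fermat.Agent.H19.ratFuncAlgebra_comp_eq y hy))
      (((RatFunc.algEquivOfTranscendental y hy).symm : K⟮y⟯ ≃+* RatFunc K).symm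
        (Algebra.trace (RatFunc K) F ((RingEquiv.refl F) G)))
    simp only [RingHom.coe_comp, Function.comp_apply, RingEquiv.toRingHom_eq_coe,
      RingEquiv.coe_toRingHom, RingEquiv.apply_symm_apply, RingEquiv.refl_apply] at h3
    exact h3
  have key := traceResidue_core (K := K) (F := F) G c P (by rw [hy']; exact hG) htr'
  rw [hy'] at key
  exact key

end Fermat.Agent.H33.MWDiv

end
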